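import Fermat.Agent.S48.Defs

/-!
# S48 (Deligne–Serre), seat BND, part 2: residual representations versus `GL₂`-valued
homomorphisms (helper55)

* `toGL ρ b`   : the matrices of a `ResidualGaloisRep` in a basis `b`, as `Γℚ →* GL₂(k)`;
* `ofGL r h`   : the `ResidualGaloisRep` on `k²` given by `r : Γℚ →* GL₂(k)`;
* `charpoly_ofGL`, `charpoly_eq_toGL` : characteristic polynomials in terms of trace and det;
* `finite_range_of_factors` : a homomorphism factoring through a finite level has finite range.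
-/

set_option autoImplicit false

namespace Fermat.Agent.S48.Bnd

open Polynomial Matrix

local notation "Γℚ" => (AlgebraicClosure ℚ ≃ₐ[ℚ] AlgebraicClosure ℚ)

variable {k : Type} [Field k]

/-- The matrices of `ρ` in the basis `b`. -/
noncomputable def toGL (ρ : ResidualGaloisRep k) (b : Module.Basis (Fin 2) k ρ.V) :
    Γℚ →* GL (Fin 2) k :=
  (Units.map ((LinearMap.toMatrixAlgEquiv b : Module.End k ρ.V ≃ₐ[k] Matrix (Fin 2) (Fin 2) k) :
    Module.End k ρ.V →* Matrix (Fin 2) (Fin 2) k)).comp ρ.ρ.toHomUnits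

theorem coe_toGL (ρ : ResidualGaloisRep k) (b : Module.Basis (Fin 2) k ρ.V) (σ : Γℚ) :
    ((toGL ρ b σ : GL (Fin 2) k) : Matrix (Fin 2) (Fin 2) k) = LinearMap.toMatrix b b (ρ.ρ σ) :=
  rfl

theorem toGL_eq_one_of (ρ : ResidualGaloisRep k) (b : Module.Basis (Fin 2) k ρ.V) {σ : Γℚ}
    (h : ρ.ρ σ = 1) : toGL ρ b σ = 1 := by
  apply Units.ext
  rw [coe_toGL, h, Units.val_one]
  exact (LinearMap.toMatrixAlgEquiv b).map_one

theorem exists_basis (ρ : ResidualGaloisRep k) : Nonempty (Module.Basis (Fin 2) k ρ.V) := by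
  have h := Module.finBasis k ρ.V
  rw [ρ.finrank_eq] at h
  exact ⟨h⟩

/-- The characteristic polynomial of `ρ σ` in terms of the matrix in a basis. -/
theorem charpoly_eq_toGL (ρ : ResidualGaloisRep k) (b : Module.Basis (Fin 2) k ρ.V) (σ : Γℚ) :
    LinearMap.charpoly (ρ.ρ σ)
      = X ^ 2 - C (trace ((toGL ρ b σ : GL (Fin 2) k) : Matrix (Fin 2) (Fin 2) k)) * X
          + C (det ((toGL ρ b σ : GL (Fin 2) k) : Matrix (Fin 2) (Fin 2) k)) := by
  rw [coe_toGL, ← Matrix.charpoly_fin_two, LinearMap.charpoly_toMatrix]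

/-- `X² - t X + d` determines `t` and `d`. -/
theorem quad_inj {t d t' d' : k}
    (h : (X ^ 2 - C t * X + C d : k[X]) = X ^ 2 - C t' * X + C d') : t = t' ∧ d = d' := by
  have h0 := congrArg (fun q : k[X] => q.coeff 0) h
  have h1 := congrArg (fun q : k[X] => q.coeff 1) h
  simp only [coeff_add, coeff_sub, coeff_X_pow, coeff_C_mul, coeff_X_zero, coeff_X_one,
    coeff_C] at h0 h1
  norm_num at h0 h1
  exact ⟨h1, h0⟩

/-- The representation on `k²` given by `r`. -/
noncomputable def ofGL (r : Γℚ →* GL (Fin 2) k) (h : GaloisFactorsThroughFiniteLevel r) :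
    ResidualGaloisRep k where
  V := Fin 2 → k
  finrank_eq := by simp
  ρ := ((Matrix.toLinAlgEquiv' : Matrix (Fin 2) (Fin 2) k ≃ₐ[k] Module.End k (Fin 2 → k)) :
      Matrix (Fin 2) (Fin 2) k →* Module.End k (Fin 2 → k)).comp
        ((Units.coeHom (Matrix (Fin 2) (Fin 2) k)).comp r)
  factorsThroughFiniteLevel := by
    obtain ⟨L, hL, hL'⟩ := h
    refine ⟨L, hL, fun σ hσ => ?_⟩
    show Matrix.toLinAlgEquiv' ((r σ : GL (Fin 2) k) : Matrix (Fin 2) (Fin 2) k) = 1
    rw [hL' σ hσ, Units.val_one]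
    exact map_one (Matrix.toLinAlgEquiv' : Matrix (Fin 2) (Fin 2) k ≃ₐ[k] _)

theorem ofGL_ρ_apply (r : Γℚ →* GL (Fin 2) k) (h : GaloisFactorsThroughFiniteLevel r) (σ : Γℚ) :
    (ofGL r h).ρ σ = Matrix.toLin' ((r σ : GL (Fin 2) k) : Matrix (Fin 2) (Fin 2) k) :=
  rfl

theorem ofGL_ρ_eq_one_of (r : Γℚ →* GL (Fin 2) k) (h : GaloisFactorsThroughFiniteLevel r)
    {σ : Γℚ} (hσ : r σ = 1) : (ofGL r h).ρ σ = 1 := by
  rw [ofGL_ρ_apply, hσ, Units.val_one]
  exact map_one (Matrix.toLinAlgEquiv' : Matrix (Fin 2) (Fin 2) k ≃ₐ[k] _)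

theorem charpoly_ofGL (r : Γℚ →* GL (Fin 2) k) (h : GaloisFactorsThroughFiniteLevel r) (σ : Γℚ) :
    LinearMap.charpoly ((ofGL r h).ρ σ)
      = X ^ 2 - C (trace ((r σ : GL (Fin 2) k) : Matrix (Fin 2) (Fin 2) k)) * X
          + C (det ((r σ : GL (Fin 2) k) : Matrix (Fin 2) (Fin 2) k)) := by
  have h1 : LinearMap.charpoly ((ofGL r h).ρ σ)
      = LinearMap.charpoly (Matrix.toLin' ((r σ : GL (Fin 2) k) : Matrix (Fin 2) (Fin 2) k)) := rfl
  rw [h1, Matrix.charpoly_toLin', Matrix.charpoly_fin_two]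

/-- The range of `(ofGL r h).ρ` is in bijection with the range of `r`. -/
theorem card_range_ofGL (r : Γℚ →* GL (Fin 2) k) (h : GaloisFactorsThroughFiniteLevel r) :
    Nat.card (Set.range (ofGL r h).ρ) = Nat.card (Set.range r) := by
  have hinj : Function.Injective
      (fun g : GL (Fin 2) k => Matrix.toLin' ((g : GL (Fin 2) k) : Matrix (Fin 2) (Fin 2) k)) := by
    intro g g' hgg
    apply Units.ext
    exact Matrix.toLin'.injective hgg
  have hrange : Set.range (ofGL r h).ρ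
      = (fun g : GL (Fin 2) k => Matrix.toLin' ((g : GL (Fin 2) k) : Matrix (Fin 2) (Fin 2) k))
          '' Set.range r := by
    ext x
    constructor
    · rintro ⟨σ, rfl⟩
      exact ⟨r σ, ⟨σ, rfl⟩, rfl⟩
    · rintro ⟨_, ⟨σ, rfl⟩, rfl⟩
      exact ⟨σ, rfl⟩
  rw [hrange]
  exact Nat.card_image_of_injective hinj _

/-- A map on `Γℚ` which factors through a finite level has finite range. -/
theorem finite_range_of_factors {M : Type} [Group M] (r : Γℚ →* M)
    (h : GaloisFactorsThroughFiniteLevel r) : (Set.range r).Finite := by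
  obtain ⟨L, hL, hL'⟩ := h
  have := hL
  -- `r σ` depends only on the restriction of `σ` to `L`
  let f : Γℚ → (L →ₐ[ℚ] AlgebraicClosure ℚ) := fun σ => (σ : AlgebraicClosure ℚ →ₐ[ℚ] _).comp L.val
  have hfac : ∀ σ τ : Γℚ, f σ = f τ → r σ = r τ := by
    intro σ τ hστ
    have h1 : r (σ⁻¹ * τ) = 1 := by
      apply hL'
      intro x hx
      have h2 := congrArg (fun g : L →ₐ[ℚ] AlgebraicClosure ℚ => g ⟨x, hx⟩) hστ
      have h3 : σ x = τ x := h2
      show σ⁻¹ (τ x) = x
      rw [← h3]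
      exact σ.symm_apply_apply x
    rw [map_mul, map_inv, inv_mul_eq_one] at h1
    exact h1
  have : Finite (L →ₐ[ℚ] AlgebraicClosure ℚ) := inferInstance
  classical
  have : Set.range r ⊆ (fun g : L →ₐ[ℚ] AlgebraicClosure ℚ =>
      if hg : ∃ σ, f σ = g then r hg.choose else 1) '' Set.univ := by
    rintro _ ⟨σ, rfl⟩
    refine ⟨f σ, Set.mem_univ _, ?_⟩
    have hex : ∃ τ, f τ = f σ := ⟨σ, rfl⟩
    simp only [dif_pos hex]
    exact hfac _ _ hex.choose_spec
  exact (Set.finite_univ.image _).subset this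

end Fermat.Agent.S48.Bnd
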