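import Fermat.Agent.S48.Defs

/-!
# S48 (Deligne–Serre), seat BND, part 1: comparison of logarithmic densities (helper55)

* `upperLogDensityLE_empty`  : the empty set has upper logarithmic density `≤ 0`;
* `le_of_lower_of_upper`     : if `Z ⊆ X ∪ T`, `T` finite, `Z` has lower logarithmic density `≥ δ`
                               and `X` has upper logarithmic density `≤ η`, then `δ ≤ η`;
* `exists_mem_not_mem_of_lower` : a set of primes of positive lower logarithmic density is not
                               contained in a finite set.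
-/

set_option autoImplicit false

namespace Fermat.Agent.S48.Bnd

open Fermat.Agent.S48

theorem upperLogDensityLE_empty : UpperLogDensityLE (∅ : Set ℕ) 0 := by
  refine ⟨0, fun s _ _ F hF => ?_⟩
  have hFe : F = ∅ := by
    apply Finset.eq_empty_of_forall_notMem
    intro p hp
    exact (hF p hp).2
  subst hFe
  simp

theorem rpow_neg_nonneg (p : ℕ) (s : ℝ) : 0 ≤ (p : ℝ) ^ (-s) :=
  Real.rpow_nonneg (Nat.cast_nonneg p) _

theorem rpow_neg_le_one (p : ℕ) {s : ℝ} (hs : 1 < s) : (p : ℝ) ^ (-s) ≤ 1 := by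
  rcases Nat.eq_zero_or_pos p with h0 | h0
  · subst h0
    rw [Nat.cast_zero, Real.zero_rpow (by linarith)]
    exact zero_le_one
  · have hp1 : (1 : ℝ) ≤ p := by exact_mod_cast h0
    exact Real.rpow_le_one_of_one_le_of_nonpos hp1 (by linarith)

/-- Comparison of a lower and an upper logarithmic density. -/
theorem le_of_lower_of_upper {Z X : Set ℕ} (T : Finset ℕ) {δ η : ℝ}
    (hZ : ∀ p ∈ Z, p.Prime → p ∈ X ∨ p ∈ T)
    (hlow : LowerLogDensityGE Z δ) (hup : UpperLogDensityLE X η) : δ ≤ η := by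
  classical
  by_contra hlt
  push Not at hlt
  have hpos : 0 < δ - η := by linarith
  obtain ⟨C₁, hC₁⟩ := hup
  obtain ⟨C₂, s₀, hs₀, hC₂⟩ := hlow ((δ - η) / 2) (by linarith)
  set K : ℝ := C₁ + C₂ + T.card with hK
  -- choose `s` with `((δ - η)/2) log (1/(s-1)) > K`, `s < min 2 s₀`
  set M : ℝ := max (max 1 (2 * K / (δ - η) + 1)) (- Real.log (s₀ - 1) + 1) with hM
  have hM1 : 1 ≤ M := le_trans (le_max_left _ _) (le_max_left _ _)
  have hM2 : 2 * K / (δ - η) + 1 ≤ M := le_trans (le_max_right _ _) (le_max_left _ _)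
  have hM3 : - Real.log (s₀ - 1) + 1 ≤ M := le_max_right _ _
  set s : ℝ := 1 + Real.exp (-M) with hs
  have hexp_pos : 0 < Real.exp (-M) := Real.exp_pos _
  have hexp_lt : Real.exp (-M) < 1 := by
    rw [Real.exp_lt_one_iff]
    linarith
  have h1 : 1 < s := by rw [hs]; linarith
  have h2 : s < 2 := by rw [hs]; linarith
  have h3 : s < s₀ := by
    have h4 : Real.exp (-M) < s₀ - 1 := by
      have h5 : Real.exp (-M) < Real.exp (Real.log (s₀ - 1)) := by
        rw [Real.exp_lt_exp]
        linarith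
      rwa [Real.exp_log (by linarith)] at h5
    rw [hs]; linarith
  have hlog : Real.log (1 / (s - 1)) = M := by
    have : s - 1 = Real.exp (-M) := by rw [hs]; ring
    rw [this, one_div, ← Real.exp_neg, neg_neg, Real.log_exp]
  obtain ⟨F, hF, hle⟩ := hC₂ s h1 h3
  have hsplit : ∑ p ∈ F, (p : ℝ) ^ (-s)
      = ∑ p ∈ F.filter (· ∈ X), (p : ℝ) ^ (-s) + ∑ p ∈ F.filter (fun p => ¬ p ∈ X), (p : ℝ) ^ (-s) :=
    (Finset.sum_filter_add_sum_filter_not F (· ∈ X) _).symm
  have hA : ∑ p ∈ F.filter (· ∈ X), (p : ℝ) ^ (-s) ≤ η * Real.log (1 / (s - 1)) + C₁ := by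
    apply hC₁ s h1 h2
    intro p hp
    rw [Finset.mem_filter] at hp
    exact ⟨(hF p hp.1).1, hp.2⟩
  have hB : ∑ p ∈ F.filter (fun p => ¬ p ∈ X), (p : ℝ) ^ (-s) ≤ T.card := by
    have hsub : F.filter (fun p => ¬ p ∈ X) ⊆ T := by
      intro p hp
      rw [Finset.mem_filter] at hp
      rcases hZ p (hF p hp.1).2 (hF p hp.1).1 with h | h
      · exact absurd h hp.2
      · exact h
    calc ∑ p ∈ F.filter (fun p => ¬ p ∈ X), (p : ℝ) ^ (-s)
        ≤ ∑ p ∈ T, (p : ℝ) ^ (-s) :=
          Finset.sum_le_sum_of_subset_of_nonneg hsub (fun p _ _ => rpow_neg_nonneg p s)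
      _ ≤ ∑ _p ∈ T, (1 : ℝ) := Finset.sum_le_sum (fun p _ => rpow_neg_le_one p h1)
      _ = T.card := by simp
  rw [hlog] at hle hA
  have hfin : (δ - η) / 2 * M ≤ K := by
    rw [hK]
    nlinarith [hle, hA, hB, hsplit]
  have h6 : 2 * K / (δ - η) < M := by linarith
  rw [div_lt_iff₀ hpos] at h6
  nlinarith

/-- A set of primes of positive lower logarithmic density is not contained in a finite set. -/
theorem exists_mem_not_mem_of_lower {Z : Set ℕ} (T : Finset ℕ) {δ : ℝ} (hδ : 0 < δ)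
    (hlow : LowerLogDensityGE Z δ) : ∃ p ∈ Z, p.Prime ∧ p ∉ T := by
  by_contra hcon
  push Not at hcon
  have := le_of_lower_of_upper (X := ∅) T
    (fun p hp hpp => Or.inr (hcon p hp hpp)) hlow upperLogDensityLE_empty
  linarith

end Fermat.Agent.S48.Bnd
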